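import Fermat.Agent.SphereHecke.Sphere
import Mathlib.MeasureTheory.Integral.IntervalIntegral.FundThmCalculus

/-!
# The area of a cap

A coordinate of a uniform point of the three-sphere has the law of Sato and Tate, so the cap above
`a` has area `2 / π ∫ (a..1) √(1 - t²)`.
-/

set_option autoImplicit false
set_option linter.unusedSectionVars false
set_option linter.style.haveILetI false

noncomputable section

open Filter MeasureTheory Metric Set
open scoped Topology RealInnerProductSpace Real BoundedContinuousFunction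
open FA.SphereHecke (R4 sphereLaw)
open FA.VerticalSatoTate (semiMean)
open FA.QuaternionJL FA.QuaternionJLSystems

namespace FA.IntegerPointsCaps

theorem semiMean_half (φ : ℝ → ℝ) :
    semiMean (fun t => φ (t / 2)) = 2 / π * ∫ t in (-1 : ℝ)..1, φ t * √(1 - t ^ 2) := by
  have e : ∀ t : ℝ, φ (t / 2) * √(4 - t ^ 2) = 2 * (φ (t / 2) * √(1 - (t / 2) ^ 2)) := fun t => by
    rw [show 4 - t ^ 2 = 2 ^ 2 * (1 - (t / 2) ^ 2) by ring, Real.sqrt_mul (by positivity),
      Real.sqrt_sq zero_le_two]
    ring
  rw [semiMean]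
  simp only [e]
  rw [intervalIntegral.integral_const_mul,
    intervalIntegral.integral_comp_div (fun t => φ t * √(1 - t ^ 2)) two_ne_zero, smul_eq_mul]
  norm_num
  ring

/-- The density of a coordinate. -/
def coordDensity (t : ℝ) : ℝ := 2 / π * √(1 - t ^ 2)

/-- The law of a coordinate. -/
def coordLaw : Measure ℝ :=
  (volume.restrict (Ioc (-1 : ℝ) 1)).withDensity fun t => ENNReal.ofReal (coordDensity t)

theorem coordDensity_nonneg (t : ℝ) : 0 ≤ coordDensity t := by
  rw [coordDensity]
  positivity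

theorem continuous_coordDensity : Continuous coordDensity := by
  unfold coordDensity
  fun_prop

theorem integral_coordLaw (φ : ℝ → ℝ) :
    ∫ t, φ t ∂coordLaw = semiMean fun t => φ (t / 2) := by
  rw [coordLaw, integral_withDensity_eq_integral_toReal_smul
    continuous_coordDensity.measurable.ennreal_ofReal
    (Eventually.of_forall fun t => ENNReal.ofReal_lt_top), semiMean_half,
    intervalIntegral.integral_of_le (by norm_num), ← integral_const_mul]
  refine integral_congr_ae (Eventually.of_forall fun t => ?_)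
  show (ENNReal.ofReal (coordDensity t)).toReal • φ t = _
  rw [ENNReal.toReal_ofReal (coordDensity_nonneg t), smul_eq_mul, coordDensity]
  ring

instance isFiniteMeasure_coordLaw : IsFiniteMeasure coordLaw :=
  isFiniteMeasure_withDensity_ofReal
    ((continuous_coordDensity.integrableOn_Ioc (a := (-1 : ℝ)) (b := 1)).hasFiniteIntegral)

/-- **The law of a coordinate.** -/
theorem map_inner_sphereLaw {e : R4} (he : ‖e‖ = 1) :
    sphereLaw.map (fun u => ⟪u, e⟫) = coordLaw := by
  have hm : Measurable fun u : R4 => ⟪u, e⟫ := (by fun_prop : Continuous _).measurable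
  have : IsProbabilityMeasure (sphereLaw.map fun u => ⟪u, e⟫) :=
    Measure.isProbabilityMeasure_map hm.aemeasurable
  refine ext_of_forall_integral_eq_of_IsFiniteMeasure fun φ => ?_
  rw [integral_map hm.aemeasurable φ.continuous.aestronglyMeasurable, integral_coordLaw]
  refine tendsto_nhds_unique
    (SphereHecke.tendsto_sphere (s := fun r => normHz (5 ^ r))
      (y := fun r => SphereHecke.spherePoint (5 ^ r))
      (fun r => SphereHecke.normHz_nonempty Nat.prime_five le_rfl r)
      (fun r x hx => SphereHecke.norm_spherePoint (pow_ne_zero r (by norm_num)) hx)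
      (fun e he ψ hψ => SphereHecke.tendsto_marginal Nat.prime_five le_rfl he hψ)
      (φ := fun u => φ ⟪u, e⟫) (by fun_prop))
    (SphereHecke.tendsto_marginal Nat.prime_five le_rfl he φ.continuous)

/-- The area above height `a`. -/
def capHeight (a : ℝ) : ℝ := 2 / π * ∫ t in a..1, √(1 - t ^ 2)

/-- **The area of a cap.** -/
theorem measureReal_inner_ge {e : R4} (he : ‖e‖ = 1) {a : ℝ} (h1 : -1 ≤ a) (h2 : a ≤ 1) :
    sphereLaw.real {u | a ≤ ⟪u, e⟫} = capHeight a := by
  have hm : Measurable fun u : R4 => ⟪u, e⟫ := (by fun_prop : Continuous _).measurable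
  have e1 : sphereLaw.real {u | a ≤ ⟪u, e⟫} = coordLaw.real (Ici a) := by
    rw [← map_inner_sphereLaw he, map_measureReal_apply hm measurableSet_Ici]
    rfl
  rw [e1, ← integral_indicator_one measurableSet_Ici, coordLaw,
    integral_withDensity_eq_integral_toReal_smul continuous_coordDensity.measurable.ennreal_ofReal
      (Eventually.of_forall fun t => ENNReal.ofReal_lt_top), capHeight,
    ← intervalIntegral.integral_const_mul, intervalIntegral.integral_of_le h2,
    ← integral_Icc_eq_integral_Ioc]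
  rw [show (fun t => (ENNReal.ofReal (coordDensity t)).toReal • (Ici a).indicator (1 : ℝ → ℝ) t) =
      (Ici a).indicator coordDensity from funext fun t => by
    by_cases ht : t ∈ Ici a <;>
      simp [ht, ENNReal.toReal_ofReal (coordDensity_nonneg t)],
    setIntegral_indicator measurableSet_Ici]
  refine setIntegral_congr_set ?_
  rw [show Icc (-1 : ℝ) 1 ∩ Ici a = Icc a 1 from Set.ext fun t =>
    ⟨fun h => ⟨h.2, h.1.2⟩, fun h => ⟨⟨h1.trans h.1, h.2⟩, h.1⟩⟩]
  exact Ioc_ae_eq_Icc.symm

/-- The area of the cap of chordal radius `ρ`. -/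
def capArea (ρ : ℝ) : ℝ := capHeight (max (-1) (1 - ρ ^ 2 / 2))

theorem capHeight_sub (a b : ℝ) :
    capHeight a - capHeight b = 2 / π * ∫ t in a..b, √(1 - t ^ 2) := by
  have hi : ∀ x y : ℝ, IntervalIntegrable (fun t => √(1 - t ^ 2)) volume x y := fun x y =>
    (by fun_prop : Continuous fun t : ℝ => √(1 - t ^ 2)).intervalIntegrable x y
  rw [capHeight, capHeight, ← mul_sub,
    ← intervalIntegral.integral_add_adjacent_intervals (hi a b) (hi b 1), add_sub_cancel_right]

theorem capHeight_sub_le {a b : ℝ} (hab : a ≤ b) : capHeight a - capHeight b ≤ b - a := by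
  rw [capHeight_sub]
  have h2 : 2 / π ≤ 1 := by
    rw [div_le_one Real.pi_pos]
    linarith [Real.pi_gt_three]
  have hle : ∫ t in a..b, √(1 - t ^ 2) ≤ b - a := by
    refine (intervalIntegral.integral_mono_on hab
      ((by fun_prop : Continuous fun t : ℝ => √(1 - t ^ 2)).intervalIntegrable a b)
      (intervalIntegrable_const (c := (1 : ℝ))) fun t _ => ?_).trans_eq (by simp)
    exact Real.sqrt_le_one.2 (by nlinarith)
  exact (mul_le_of_le_one_left (intervalIntegral.integral_nonneg hab fun t _ => Real.sqrt_nonneg _)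
    h2).trans hle

theorem capHeight_nonneg {a : ℝ} (ha : a ≤ 1) : 0 ≤ capHeight a :=
  mul_nonneg (by positivity) (intervalIntegral.integral_nonneg ha fun t _ => Real.sqrt_nonneg _)

theorem capHeight_one : capHeight 1 = 0 := by simp [capHeight]

/-- **A cap is a ball.** -/
theorem measureReal_closedBall {v : R4} (hv : ‖v‖ = 1) {ρ : ℝ} (hρ : 0 ≤ ρ) :
    sphereLaw.real (closedBall v ρ) = capArea ρ := by
  rw [capArea, ← measureReal_inner_ge hv (le_max_left _ _)
    (max_le (by norm_num) (by nlinarith [sq_nonneg ρ]))]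
  refine measureReal_congr ?_
  filter_upwards [SphereHecke.ae_norm_one] with u hu
  refine propext ?_
  show u ∈ closedBall v ρ ↔ max (-1) (1 - ρ ^ 2 / 2) ≤ ⟪u, v⟫
  rw [mem_closedBall, dist_eq_norm, ← sq_le_sq₀ (norm_nonneg _) hρ, norm_sub_sq_real, hu, hv,
    max_le_iff]
  have h := neg_le_of_abs_le (abs_real_inner_le_norm u v)
  rw [hu, hv, one_mul] at h
  constructor
  · intro h'; exact ⟨h, by linarith⟩
  · intro h'; linarith [h'.2]

theorem capArea_nonneg (ρ : ℝ) : 0 ≤ capArea ρ :=
  capHeight_nonneg (max_le (by norm_num) (by nlinarith [sq_nonneg ρ]))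

/-- **Small caps are not small beyond the volume.** -/
theorem cube_le_capArea {δ : ℝ} (h0 : 0 ≤ δ) (h1 : δ ≤ 1) : δ ^ 3 / 16 ≤ capArea δ := by
  rw [capArea, max_eq_right (by nlinarith)]
  have h := capHeight_sub (1 - δ ^ 2 / 2) (1 - δ ^ 2 / 4)
  have hle : δ ^ 2 / 4 * (δ / 2) ≤ ∫ t in (1 - δ ^ 2 / 2)..(1 - δ ^ 2 / 4), √(1 - t ^ 2) := by
    refine le_of_eq_of_le ?_ (intervalIntegral.integral_mono_on (by nlinarith)
      (intervalIntegrable_const (c := δ / 2))
      ((by fun_prop : Continuous fun t : ℝ => √(1 - t ^ 2)).intervalIntegrable _ _) fun t ht => ?_)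
    · rw [intervalIntegral.integral_const, smul_eq_mul]
      ring
    · have h3 : δ ^ 2 / 4 ≤ 1 - t := by linarith [ht.2]
      have h4 : 0 ≤ t := by nlinarith [ht.1]
      have h5 : 0 ≤ (1 - t) * t := mul_nonneg (by nlinarith) h4
      rw [Real.le_sqrt (by linarith) (by nlinarith)]
      nlinarith
  have h2 : 1 / 2 ≤ 2 / π := by
    rw [le_div_iff₀ Real.pi_pos]
    linarith [Real.pi_le_four]
  have hb : 0 ≤ capHeight (1 - δ ^ 2 / 4) := capHeight_nonneg (by nlinarith)
  have hc := mul_le_mul h2 hle (by positivity) (by positivity)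
  nlinarith

/-- **The area is Lipschitz in the radius.** -/
theorem capArea_add_le {ρ δ : ℝ} (hρ : 0 ≤ ρ) (hδ : 0 ≤ δ) :
    capArea (ρ + δ) ≤ capArea ρ + 2 * δ := by
  have hab : max (-1) (1 - (ρ + δ) ^ 2 / 2) ≤ max (-1) (1 - ρ ^ 2 / 2) :=
    max_le_max le_rfl (by nlinarith)
  have h := capHeight_sub_le hab
  rw [← capArea, ← capArea] at h
  suffices max (-1) (1 - ρ ^ 2 / 2) - max (-1) (1 - (ρ + δ) ^ 2 / 2) ≤ 2 * δ by linarith
  rcases le_or_gt 2 ρ with h2 | h2
  · rw [max_eq_left (by nlinarith), max_eq_left (by nlinarith)]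
    linarith
  rw [max_eq_right (show -1 ≤ 1 - ρ ^ 2 / 2 by nlinarith)]
  rcases le_or_gt (ρ + δ) 2 with h3 | h3
  · have := le_max_right (-1 : ℝ) (1 - (ρ + δ) ^ 2 / 2)
    nlinarith
  · have := le_max_left (-1 : ℝ) (1 - (ρ + δ) ^ 2 / 2)
    nlinarith

end FA.IntegerPointsCaps

end
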