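import Fermat.Agent.IntegerPointsCaps.Operator
import Fermat.Agent.IntegerPointsCaps.Area
import Fermat.Agent.RuziewiczProblem.Gap
import Fermat.Agent.SphereHecke.FourSquares

/-!
# Points in shrinking caps

The gap says that the points of a norm, moved by a small cap around one, meet every cap almost in
proportion to its area; as a small move changes a cap little, so do the points themselves. With
iterates in place of the operator the same holds for the words in the generators.
-/

set_option autoImplicit false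
set_option linter.unusedSectionVars false
set_option linter.style.haveILetI false

noncomputable section

open Quaternion MeasureTheory Metric Set
open scoped Quaternion RealInnerProductSpace
open FA.QuaternionJL FA.QuaternionJLSystems
open FA.SphereHecke (R4 sphereLaw spherePoint squaresPoint vec4)
open FA.BanachRuziewicz (LTwo oneL inner_oneL centred inner_oneL_centred avgL avgL_oneL
  mean_iterate iterate_centred coeFn_avgL_pow avgOp avgOp_apply avgOp_succ avgOp_congr_ae rotFun
  rotEquiv coe_rotEquiv norm_rotFun qlin gapRate norm_iterate_le continuous_rotFun)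
open FA.RuziewiczProblem (qone norm_qone qlin_eq_qprod qprod)

namespace FA.IntegerPointsCaps

theorem norm_centred_le (F : LTwo) : ‖centred F‖ ≤ ‖F‖ := by
  refine (sq_le_sq₀ (norm_nonneg _) (norm_nonneg _)).1 ?_
  have e : F = centred F + ⟪oneL, F⟫ • oneL := by rw [centred, sub_add_cancel]
  conv_rhs => rw [e, norm_add_sq_real, real_inner_smul_right, real_inner_comm oneL (centred F),
    inner_oneL_centred, mul_zero, mul_zero, add_zero]
  exact le_add_of_nonneg_right (sq_nonneg _)

/-- The iterate mixes two sets up to `θ`. -/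
def Mixes (n r : ℕ) (θ : ℝ) : Prop :=
  ∀ D B : Set R4, MeasurableSet D → MeasurableSet B →
    |(∫ u in D, (avgOp n)^[r] (B.indicator fun _ => (1 : ℝ)) u ∂sphereLaw) -
        sphereLaw.real D * sphereLaw.real B| ≤
      θ * Real.sqrt (sphereLaw.real D) * Real.sqrt (sphereLaw.real B)

theorem mixes_of_gap {n r : ℕ} {θ : ℝ} (hn : n ≠ 0) (hne : (normHz n).Nonempty) (hθ : 0 ≤ θ)
    (h : ∀ F : LTwo, ‖(avgL n)^[r] (centred F)‖ ≤ θ * ‖centred F‖) : Mixes n r θ := by
  intro D B hD hB
  set G : LTwo := indicatorConstLp 2 hD (measure_ne_top sphereLaw D) (1 : ℝ)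
  set F : LTwo := indicatorConstLp 2 hB (measure_ne_top sphereLaw B) (1 : ℝ)
  have hnorm : ∀ {A : Set R4} (hA : MeasurableSet A),
      ‖indicatorConstLp 2 hA (measure_ne_top sphereLaw A) (1 : ℝ)‖ =
        Real.sqrt (sphereLaw.real A) := fun hA => by
    rw [norm_indicatorConstLp two_ne_zero ENNReal.ofNat_ne_top, norm_one, one_mul,
      Real.sqrt_eq_rpow, ENNReal.toReal_ofNat]
  have hmean : ∀ {A : Set R4} (hA : MeasurableSet A),
      ⟪oneL, indicatorConstLp 2 hA (measure_ne_top sphereLaw A) (1 : ℝ)⟫ = sphereLaw.real A :=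
    fun hA => by
      rw [inner_oneL, integral_indicatorConstLp]
      simp
  have hcongr : ∀ s : ℕ, (avgOp n)^[s] (F : R4 → ℝ) =ᵐ[sphereLaw]
      (avgOp n)^[s] (B.indicator fun _ => (1 : ℝ)) := fun s => by
    induction s with
    | zero => exact indicatorConstLp_coeFn
    | succ s ih =>
      rw [Function.iterate_succ_apply', Function.iterate_succ_apply']
      exact avgOp_congr_ae hn ih
  have hint : ⟪G, (avgL n)^[r] F⟫ =
      ∫ u in D, (avgOp n)^[r] (B.indicator fun _ => (1 : ℝ)) u ∂sphereLaw := by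
    rw [L2.inner_indicatorConstLp_one]
    exact setIntegral_congr_ae hD
      (((coeFn_avgL_pow hn F r).trans (hcongr r)).mono fun u hu _ => hu)
  have hone : (avgL n)^[r] oneL = oneL := Function.iterate_fixed (avgL_oneL hn hne) r
  have hsplit : (avgL n)^[r] F = (avgL n)^[r] (centred F) + ⟪oneL, F⟫ • oneL := by
    rw [iterate_centred hn hne, centred, mean_iterate hn hne, sub_add_cancel]
  rw [← hint, hsplit, inner_add_right, real_inner_smul_right, real_inner_comm oneL G, hmean hB,
    hmean hD, mul_comm (sphereLaw.real B), add_sub_cancel_right]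
  refine (abs_real_inner_le_norm _ _).trans ?_
  refine (mul_le_mul_of_nonneg_left ((h F).trans (mul_le_mul_of_nonneg_left (norm_centred_le F) hθ))
    (norm_nonneg _)).trans (le_of_eq ?_)
  rw [hnorm hD, hnorm hB]
  ring

theorem mixes_capRate {n : ℕ} (h2 : ¬2 ∣ n) (h3 : ¬3 ∣ n) : Mixes n 1 (capRate n) :=
  mixes_of_gap (ne_zero_of_odd h2) (nonempty_normHz h2)
    (capRate_pos (ne_zero_of_odd h2)).le (norm_avgL_capRate h2 h3)

theorem mixes_gapRate {p : ℕ} (hp : p.Prime) (h16 : 16 ≤ p) (r : ℕ) :
    Mixes p r (gapRate p ^ r) :=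
  mixes_of_gap hp.ne_zero (BanachRuziewicz.rated_gapRate hp h16).nonempty
    (pow_nonneg (BanachRuziewicz.gapRate_nonneg p) r) fun F => norm_iterate_le hp h16 F r

theorem rotFun_qone (n : ℕ) (x : ℍ[ℚ]) : rotFun n x qone = spherePoint n x := by
  refine WithLp.ofLp_injective 2 (funext fun i => ?_)
  fin_cases i <;> simp [rotFun, qlin, qone, spherePoint, vec4]

theorem dist_rotFun {n : ℕ} (hn : n ≠ 0) {x : ℍ[ℚ]} (hx : x ∈ normHz n) (u w : R4) :
    ‖rotFun n x u - rotFun n x w‖ = ‖u - w‖ := by
  rw [← coe_rotEquiv hn hx, ← map_sub, LinearIsometryEquiv.norm_map]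

/-- The share of the points of norm `n` in a cap. -/
def capShare (n : ℕ) (v : R4) (ρ : ℝ) : ℝ :=
  ((normHz n).card : ℝ)⁻¹ *
    ∑ x ∈ normHz n, (closedBall v ρ).indicator (fun _ => (1 : ℝ)) (spherePoint n x)

theorem capShare_mem_Icc (n : ℕ) (v : R4) (ρ : ℝ) : capShare n v ρ ∈ Icc (0 : ℝ) 1 := by
  refine ⟨mul_nonneg (by positivity) (Finset.sum_nonneg fun x _ =>
    indicator_nonneg (fun _ _ => zero_le_one) _), ?_⟩
  refine (mul_le_mul_of_nonneg_left (Finset.sum_le_sum fun x _ =>
    indicator_le_self' (fun _ _ => zero_le_one) _) (by positivity)).trans ?_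
  rw [Finset.sum_const, nsmul_eq_mul, mul_one]
  rcases eq_or_ne ((normHz n).card : ℝ) 0 with h | h
  · simp [h]
  · rw [inv_mul_cancel₀ h]

theorem integrable_iterate (n r : ℕ) (hn : n ≠ 0) {B : Set R4} (hB : MeasurableSet B) :
    Integrable ((avgOp n)^[r] (B.indicator fun _ => (1 : ℝ))) sphereLaw := by
  induction r with
  | zero => exact (integrable_const (1 : ℝ)).indicator hB
  | succ r ih =>
    rw [Function.iterate_succ_apply']
    refine (integrable_finsetSum _ fun x hx => ?_).const_mul _
    exact (BanachRuziewicz.measurePreserving_rotFun hn hx).integrable_comp_of_integrable ih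

/-- **Discrepancy.** -/
theorem abs_capShare_sub_le {n : ℕ} (hn : n ≠ 0) {θ : ℝ} (h : Mixes n 1 θ) (hθ : 0 < θ) {v : R4}
    (hv : ‖v‖ = 1) {ρ : ℝ} (hρ : 0 ≤ ρ) :
    |capShare n v ρ - capArea ρ| ≤ 6 * θ ^ (2 / 5 : ℝ) := by
  have hm := capShare_mem_Icc n v ρ
  have ha : capArea ρ ∈ Icc (0 : ℝ) 1 := ⟨capArea_nonneg ρ, by
    rw [← measureReal_closedBall hv hρ]
    exact measureReal_le_one⟩
  set δ : ℝ := θ ^ (2 / 5 : ℝ) with hδ
  have hδ0 : 0 < δ := Real.rpow_pos_of_pos hθ _
  rcases le_or_gt 1 δ with h1 | h1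
  · rw [abs_le]
    constructor <;> linarith [hm.1, hm.2, ha.1, ha.2]
  set D := closedBall qone δ
  have hD : sphereLaw.real D = capArea δ := measureReal_closedBall norm_qone hδ0.le
  have hlow : δ ^ 3 / 16 ≤ capArea δ := cube_le_capArea hδ0.le h1.le
  have hDpos : 0 < capArea δ := lt_of_lt_of_le (by positivity) hlow
  have herr : ∀ σ : ℝ, σ ≤ 1 → θ * Real.sqrt (capArea δ) * Real.sqrt σ ≤ capArea δ * (4 * δ) := by
    intro σ hσ
    have hs : δ ^ (3 / 2 : ℝ) / 4 ≤ Real.sqrt (capArea δ) := by
      refine Real.le_sqrt_of_sq_le (le_trans (le_of_eq ?_) hlow)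
      rw [div_pow, ← Real.rpow_natCast (δ ^ (3 / 2 : ℝ)), ← Real.rpow_mul hδ0.le,
        ← Real.rpow_natCast δ 3]
      norm_num
    have hθe : θ = δ * δ ^ (3 / 2 : ℝ) := by
      rw [← Real.rpow_one_add' hδ0.le (by norm_num), hδ, ← Real.rpow_mul hθ.le]
      norm_num
    calc θ * Real.sqrt (capArea δ) * Real.sqrt σ ≤ θ * Real.sqrt (capArea δ) :=
          mul_le_of_le_one_right (by positivity) (Real.sqrt_le_one.2 hσ)
      _ = 4 * δ * (δ ^ (3 / 2 : ℝ) / 4) * Real.sqrt (capArea δ) := by
          rw [hθe]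
          ring
      _ ≤ 4 * δ * Real.sqrt (capArea δ) * Real.sqrt (capArea δ) :=
          mul_le_mul_of_nonneg_right (mul_le_mul_of_nonneg_left hs (by positivity))
            (Real.sqrt_nonneg _)
      _ = capArea δ * (4 * δ) := by
          rw [mul_assoc, Real.mul_self_sqrt hDpos.le]
          ring
  have hclose : ∀ u ∈ D, ∀ x ∈ normHz n, ‖rotFun n x u - spherePoint n x‖ ≤ δ := fun u hu x hx => by
    rw [← rotFun_qone, dist_rotFun hn hx, ← dist_eq_norm]
    exact hu
  have hup : capShare n v ρ ≤ capArea (ρ + δ) + 4 * δ := by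
    have hB : sphereLaw.real (closedBall v (ρ + δ)) = capArea (ρ + δ) :=
      measureReal_closedBall hv (by linarith)
    have hmix := (abs_le.1 (h D (closedBall v (ρ + δ)) measurableSet_closedBall
      measurableSet_closedBall)).2
    have hge : sphereLaw.real D * capShare n v ρ ≤
        ∫ u in D, (avgOp n)^[1] ((closedBall v (ρ + δ)).indicator fun _ => (1 : ℝ)) u
          ∂sphereLaw := by
      rw [← smul_eq_mul, ← setIntegral_const]
      refine setIntegral_mono_on (integrable_const _).integrableOn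
        (integrable_iterate n 1 hn measurableSet_closedBall).integrableOn measurableSet_closedBall
        fun u hu => mul_le_mul_of_nonneg_left (Finset.sum_le_sum fun x hx => ?_) (by positivity)
      by_cases hy : spherePoint n x ∈ closedBall v ρ
      · have hx' : rotFun n x u ∈ closedBall v (ρ + δ) := by
          refine mem_closedBall.2 ((dist_triangle _ (spherePoint n x) _).trans ?_)
          have h1 := hclose u hu x hx
          have h2 := mem_closedBall.1 hy
          rw [dist_eq_norm (rotFun n x u)]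
          linarith
        rw [indicator_of_mem hy, indicator_of_mem hx']
      · rw [indicator_of_notMem hy]
        exact indicator_nonneg (fun _ _ => zero_le_one) _
    have hσ1 : capArea (ρ + δ) ≤ 1 := hB ▸ measureReal_le_one
    rw [hD, hB] at hmix
    rw [hD] at hge
    refine le_of_mul_le_mul_left ?_ hDpos
    linarith [herr _ hσ1]
  have hlo : capArea ρ - 6 * δ ≤ capShare n v ρ := by
    rcases le_or_gt ρ δ with hρδ | hρδ
    · have := capArea_add_le (ρ := 0) le_rfl hρ
      have h0 : capArea 0 = 0 := by simp [capArea, capHeight_one]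
      rw [zero_add, h0] at this
      linarith [hm.1]
    have hB : sphereLaw.real (closedBall v (ρ - δ)) = capArea (ρ - δ) :=
      measureReal_closedBall hv (by linarith)
    have hmix := (abs_le.1 (h D (closedBall v (ρ - δ)) measurableSet_closedBall
      measurableSet_closedBall)).1
    have hle : ∫ u in D, (avgOp n)^[1] ((closedBall v (ρ - δ)).indicator fun _ => (1 : ℝ)) u
        ∂sphereLaw ≤ sphereLaw.real D * capShare n v ρ := by
      rw [← smul_eq_mul, ← setIntegral_const]
      refine setIntegral_mono_on (integrable_iterate n 1 hn measurableSet_closedBall).integrableOn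
        (integrable_const _).integrableOn measurableSet_closedBall
        fun u hu => mul_le_mul_of_nonneg_left (Finset.sum_le_sum fun x hx => ?_) (by positivity)
      by_cases hy : rotFun n x u ∈ closedBall v (ρ - δ)
      · have hx' : spherePoint n x ∈ closedBall v ρ := by
          refine mem_closedBall.2 ((dist_triangle _ (rotFun n x u) _).trans ?_)
          have h1 := hclose u hu x hx
          have h2 := mem_closedBall.1 hy
          rw [dist_comm, dist_eq_norm (rotFun n x u)]
          linarith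
        rw [indicator_of_mem hy, indicator_of_mem hx']
      · rw [indicator_of_notMem hy]
        exact indicator_nonneg (fun _ _ => zero_le_one) _
    have hσ1 : capArea (ρ - δ) ≤ 1 := hB ▸ measureReal_le_one
    rw [hD, hB] at hmix
    rw [hD] at hle
    have hl := capArea_add_le (ρ := ρ - δ) (by linarith) hδ0.le
    rw [sub_add_cancel] at hl
    have := le_of_mul_le_mul_left (a := capArea δ) (b := capArea (ρ - δ) - 4 * δ)
      (c := capShare n v ρ) (by linarith [herr _ hσ1]) hDpos
    linarith
  rw [abs_le]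
  constructor <;> linarith [capArea_add_le hρ hδ0.le]

/-- The action of a word. -/
def wordAct (n : ℕ) (L : List ℍ[ℚ]) (u : R4) : R4 := L.foldr (rotFun n) u

theorem dist_wordAct {n : ℕ} (hn : n ≠ 0) {L : List ℍ[ℚ]} (hL : ∀ x ∈ L, x ∈ normHz n)
    (u w : R4) : ‖wordAct n L u - wordAct n L w‖ = ‖u - w‖ := by
  induction L with
  | nil => rfl
  | cons x L ih =>
    rw [wordAct, wordAct, List.foldr_cons, List.foldr_cons,
      dist_rotFun hn (hL x List.mem_cons_self)]
    exact ih fun y hy => hL y (List.mem_cons_of_mem _ hy)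

theorem exists_word {n : ℕ} {F : R4 → ℝ} : ∀ (r : ℕ) (u : R4), (avgOp n)^[r] F u ≠ 0 →
    ∃ L : List ℍ[ℚ], L.length = r ∧ (∀ x ∈ L, x ∈ normHz n) ∧ F (wordAct n L u) ≠ 0 := by
  intro r
  induction r with
  | zero => exact fun u h => ⟨[], rfl, by simp, h⟩
  | succ r ih =>
    intro u h
    rw [avgOp_succ] at h
    obtain ⟨x, hx, hne⟩ := Finset.exists_ne_zero_of_sum_ne_zero (right_ne_zero_of_mul h)
    obtain ⟨L, hl, hL, hF⟩ := ih _ hne
    refine ⟨L ++ [x], by simp [hl], fun y hy => ?_, ?_⟩
    · rcases List.mem_append.1 hy with hy | hy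
      · exact hL y hy
      · rwa [List.mem_singleton.1 hy]
    · rwa [wordAct, List.foldr_append, List.foldr_cons, List.foldr_nil]

theorem wordAct_qone (n : ℕ) (L : List ℍ[ℚ]) :
    wordAct n L qone = spherePoint (n ^ L.length) L.prod := by
  induction L with
  | nil =>
    refine WithLp.ofLp_injective 2 (funext fun i => ?_)
    fin_cases i <;> simp [wordAct, qone, spherePoint, vec4]
  | cons x L ih =>
    have e : qprod (vec4 x) (vec4 L.prod) = vec4 (x * L.prod) := by
      refine WithLp.ofLp_injective 2 (funext fun i => ?_)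
      fin_cases i <;> simp [qprod, vec4]
    rw [wordAct, List.foldr_cons, ← wordAct, ih, List.prod_cons, List.length_cons, spherePoint,
      spherePoint, rotFun, qlin_eq_qprod, map_smul, e, smul_smul]
    congr 1
    push_cast
    rw [pow_succ', Real.sqrt_mul (Nat.cast_nonneg n), mul_inv]

/-- **Some word comes near every direction.** -/
theorem exists_word_near {n r : ℕ} (hn : n ≠ 0) (hne : (normHz n).Nonempty) {θ : ℝ}
    (h : Mixes n r θ) (hθ : 0 < θ) {v : R4} (hv : ‖v‖ = 1) :
    ∃ L : List ℍ[ℚ], L.length = r ∧ (∀ x ∈ L, x ∈ normHz n) ∧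
      ‖spherePoint (n ^ r) L.prod - v‖ ≤ 6 * θ ^ (1 / 3 : ℝ) := by
  set δ : ℝ := 3 * θ ^ (1 / 3 : ℝ) with hδ
  have hδ0 : 0 < δ := by positivity
  rcases le_or_gt 1 δ with h1 | h1
  · obtain ⟨x, hx⟩ := hne
    refine ⟨List.replicate r x, by simp, fun y hy => by rwa [List.eq_of_mem_replicate hy], ?_⟩
    have e : ‖spherePoint (n ^ r) (List.replicate r x).prod‖ = 1 := by
      have hd := dist_wordAct hn (L := List.replicate r x)
        (fun y hy => by rwa [List.eq_of_mem_replicate hy]) qone 0
      have h0 : ∀ L : List ℍ[ℚ], wordAct n L 0 = 0 := fun L => by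
        induction L with
        | nil => rfl
        | cons y L ih =>
          rw [wordAct, List.foldr_cons, ← wordAct, ih, rotFun, map_zero, smul_zero]
      rw [h0, sub_zero, sub_zero, wordAct_qone, List.length_replicate, norm_qone] at hd
      exact hd
    refine (norm_sub_le _ _).trans ?_
    rw [e, hv]
    linarith
  by_contra! hcon
  have hzero : ∀ u ∈ closedBall qone δ,
      (avgOp n)^[r] ((closedBall v δ).indicator fun _ => (1 : ℝ)) u = 0 := fun u hu => by
    by_contra hne'
    obtain ⟨L, hl, hL, hF⟩ := exists_word r u hne'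
    have hmem := mem_of_indicator_ne_zero hF
    have hfar := hcon L hl hL
    rw [← hl, ← wordAct_qone] at hfar
    have h2 := norm_sub_le_norm_sub_add_norm_sub (wordAct n L qone) (wordAct n L u) v
    rw [dist_wordAct hn hL, norm_sub_rev qone u, ← dist_eq_norm u, ← dist_eq_norm (wordAct n L u)]
      at h2
    have h3 := mem_closedBall.1 hu
    have h4 := mem_closedBall.1 hmem
    linarith
  have hmix := (abs_le.1 (h _ _ (measurableSet_closedBall (x := qone) (ε := δ))
    (measurableSet_closedBall (x := v) (ε := δ)))).1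
  rw [setIntegral_eq_zero_of_forall_eq_zero hzero, measureReal_closedBall norm_qone hδ0.le,
    measureReal_closedBall hv hδ0.le, mul_assoc,
    Real.mul_self_sqrt (capArea_nonneg δ)] at hmix
  have hlow := cube_le_capArea hδ0.le h1.le
  have hpos : 0 < capArea δ := lt_of_lt_of_le (by positivity) hlow
  have hle : capArea δ ≤ θ := le_of_mul_le_mul_right (by linarith) hpos
  have hcube : δ ^ 3 = 27 * θ := by
    rw [hδ, mul_pow, ← Real.rpow_natCast (θ ^ (1 / 3 : ℝ)), ← Real.rpow_mul hθ.le]
    norm_num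
  linarith

/-- **Points near every direction.** -/
theorem exists_point_near {n : ℕ} (h2 : ¬2 ∣ n) (h3 : ¬3 ∣ n) {v : R4} (hv : ‖v‖ = 1) :
    ∃ x ∈ normHz n, ‖spherePoint n x - v‖ ≤ 6 * capRate n ^ (1 / 3 : ℝ) := by
  have hn := ne_zero_of_odd h2
  obtain ⟨L, hl, hL, h⟩ :=
    exists_word_near hn (nonempty_normHz h2) (mixes_capRate h2 h3) (capRate_pos hn) hv
  obtain ⟨x, rfl⟩ := List.length_eq_one_iff.1 hl
  rw [pow_one, List.prod_singleton] at h
  exact ⟨x, hL x List.mem_cons_self, h⟩

/-- **The four squares near every direction.** -/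
theorem exists_squares_near {n : ℕ} (h2 : ¬2 ∣ n) (h3 : ¬3 ∣ n) {v : R4} (hv : ‖v‖ = 1) :
    ∃ w ∈ FA.HurwitzQ.fours (4 * n), ‖squaresPoint n w - v‖ ≤ 6 * capRate n ^ (1 / 3 : ℝ) := by
  obtain ⟨x, hx, h⟩ := exists_point_near h2 h3 hv
  rw [normHz, Finset.mem_map] at hx
  obtain ⟨q, hq, rfl⟩ := hx
  refine ⟨(q.1, q.2.1, q.2.2.1, q.2.2.2), ?_, ?_⟩
  · rw [mem_normPts, sqNorm] at hq
    rw [FA.HurwitzQ.mem_fours]
    push_cast at hq ⊢
    linarith
  · rw [← SphereHecke.spherePoint_toQ]
    exact h

/-- **Logarithmic words.** -/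
theorem exists_log_word {p : ℕ} (hp : p.Prime) (h16 : 16 ≤ p) :
    ∃ C : ℝ, ∀ ε : ℝ, 0 < ε → ε ≤ 1 → ∀ v : R4, ‖v‖ = 1 →
      ∃ L : List ℍ[ℚ], (L.length : ℝ) ≤ C * Real.log (2 / ε) ∧ (∀ x ∈ L, x ∈ normHz p) ∧
        ‖spherePoint (p ^ L.length) L.prod - v‖ ≤ ε := by
  have hr := BanachRuziewicz.rated_gapRate hp h16
  set θ := gapRate p
  set K : ℝ := -Real.log θ with hK
  have hK0 : 0 < K := neg_pos.2 (Real.log_neg hr.pos hr.lt_one)
  refine ⟨9 / K + 2, fun ε hε hε1 v hv => ?_⟩
  set r := ⌈3 * Real.log (7 / ε) / K⌉₊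
  obtain ⟨L, hl, hL, h⟩ := exists_word_near hr.ne_zero hr.nonempty (mixes_gapRate hp h16 r)
    (pow_pos hr.pos r) hv
  refine ⟨L, ?_, hL, ?_⟩
  · rw [hl]
    have hlog : 1 / 2 ≤ Real.log (2 / ε) := by
      refine le_trans ?_ (Real.log_le_log two_pos ((le_div_iff₀ hε).2 (by linarith)))
      have := Real.log_two_gt_d9
      linarith
    have h7 : Real.log (7 / ε) ≤ 3 * Real.log (2 / ε) := by
      rw [show 3 * Real.log (2 / ε) = Real.log ((2 / ε) ^ 3) by
        rw [Real.log_pow]; norm_num]
      refine Real.log_le_log (by positivity) ?_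
      rw [div_pow, div_le_div_iff₀ hε (by positivity)]
      nlinarith [mul_nonneg hε.le (sub_nonneg.2 (show ε ^ 2 ≤ 1 by nlinarith))]
    have h0 : 0 ≤ 3 * Real.log (7 / ε) / K := by
      refine div_nonneg (mul_nonneg (by norm_num) (Real.log_nonneg ?_)) hK0.le
      rw [one_le_div hε]
      linarith
    refine (Nat.ceil_lt_add_one h0).le.trans ?_
    have : 3 * Real.log (7 / ε) / K ≤ 9 / K * Real.log (2 / ε) := by
      rw [div_mul_eq_mul_div]
      exact div_le_div_of_nonneg_right (by linarith) hK0.le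
    linarith
  · rw [hl]
    refine h.trans ?_
    have hexp : (θ ^ r) ^ (1 / 3 : ℝ) ≤ ε / 7 := by
      rw [← Real.log_le_log_iff (Real.rpow_pos_of_pos (pow_pos hr.pos r) _) (by positivity),
        Real.log_rpow (pow_pos hr.pos r), Real.log_pow,
        show Real.log (ε / 7) = -Real.log (7 / ε) by rw [← Real.log_inv, inv_div]]
      have h1 : 3 * Real.log (7 / ε) ≤ (r : ℝ) * K := (div_le_iff₀ hK0).1 (Nat.le_ceil _)
      rw [hK] at h1
      linarith
    linarith

end FA.IntegerPointsCaps

end
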