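import Fermat.Agent.BanachRuziewicz.Gap
import Mathlib.NumberTheory.ArithmeticFunction.Misc

/-!
# The operator of every norm prime to six

At a prime power the eigenvalues obey the recursion with both roots at most `p ^ (j / 2 + 3 / 4)`,
so by multiplicativity the operator of `n` is at most `d (n) n ^ (j / 2 + 3 / 4)`: the average over
the quaternions of norm `n` shrinks functions of mean zero by `d (n) n ^ (-1 / 4)`.
-/

set_option autoImplicit false
set_option linter.unusedSectionVars false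
set_option linter.style.haveILetI false

noncomputable section

open Quaternion Matrix MeasureTheory
open scoped Quaternion ComplexConjugate
open FA.QuaternionJL FA.QuaternionJLSystems
open FA.SphereHecke (powEigen avgU avgU_mul avgU_pow_mulVec isHermitian_avgU)
open FA.HarmonicTheta (expo exists_powEigen_bound root_le_of_powEigen_bound pow_succ_le_expo_sq)
open FA.BanachRuziewicz (Rated eigenScale LTwo avgL centred rotL norm_rotL avgL_apply)

namespace FA.IntegerPointsCaps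

/-- **The recursion, both of whose roots are at most `P`.** -/
theorem powEigen_le {p j : ℕ} {μ P : ℝ} (hP : 0 ≤ P) (hbP : (p : ℝ) ^ (j + 1) ≤ P ^ 2)
    (hroot : 0 < μ ^ 2 - 4 * (p : ℝ) ^ (j + 1) →
      (|μ| + Real.sqrt (μ ^ 2 - 4 * (p : ℝ) ^ (j + 1))) / 2 ≤ P) (r : ℕ) :
    |powEigen p j μ r| ≤ ((r : ℝ) + 1) * P ^ r := by
  set b : ℝ := (p : ℝ) ^ (j + 1) with hb
  obtain ⟨α, β, hs, hm, hα, hβ⟩ : ∃ α β : ℂ, α + β = μ ∧ α * β = b ∧ ‖α‖ ≤ P ∧ ‖β‖ ≤ P := by
    rcases lt_or_ge 0 (μ ^ 2 - 4 * b) with hd | hd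
    · set s := Real.sqrt (μ ^ 2 - 4 * b)
      have hss : s ^ 2 = μ ^ 2 - 4 * b := Real.sq_sqrt hd.le
      have h := hroot hd
      have h1 := abs_add_le μ s
      have h2 := abs_sub μ s
      rw [abs_of_nonneg (Real.sqrt_nonneg _)] at h1 h2
      refine ⟨(((μ + s) / 2 : ℝ) : ℂ), (((μ - s) / 2 : ℝ) : ℂ), ?_, ?_, ?_, ?_⟩
      · push_cast; ring
      · rw [← Complex.ofReal_mul, show (μ + s) / 2 * ((μ - s) / 2) = b by
          linear_combination (-1 / 4 : ℝ) * hss]
      · rw [Complex.norm_real, Real.norm_eq_abs, abs_div, abs_two]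
        linarith
      · rw [Complex.norm_real, Real.norm_eq_abs, abs_div, abs_two]
        linarith
    · set s := Real.sqrt (4 * b - μ ^ 2)
      have hss : s ^ 2 = 4 * b - μ ^ 2 := Real.sq_sqrt (by linarith)
      have hn : ∀ t : ℝ, t ^ 2 = s ^ 2 → ‖(⟨μ / 2, t / 2⟩ : ℂ)‖ ≤ P := fun t ht => by
        refine (sq_le_sq₀ (norm_nonneg _) hP).1 (le_trans (le_of_eq ?_) hbP)
        rw [← Complex.normSq_eq_norm_sq, Complex.normSq_mk]
        linear_combination (1 / 4 : ℝ) * ht + (1 / 4 : ℝ) * hss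
      refine ⟨⟨μ / 2, s / 2⟩, ⟨μ / 2, -s / 2⟩, ?_, ?_, hn s rfl, hn (-s) (neg_sq s)⟩
      · apply Complex.ext <;> simp
        ring
      · apply Complex.ext <;> simp <;> nlinarith
  have hrec : ∀ k, ∑ i ∈ Finset.range (k + 2), α ^ i * β ^ (k + 1 - i) =
      β * (∑ i ∈ Finset.range (k + 1), α ^ i * β ^ (k - i)) + α ^ (k + 1) := fun k => by
    rw [Finset.sum_range_succ, Finset.mul_sum, Nat.sub_self, pow_zero, mul_one]
    refine congrArg (· + _) (Finset.sum_congr rfl fun i hi => ?_)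
    rw [Finset.mem_range] at hi
    rw [show k + 1 - i = (k - i) + 1 by omega]
    ring
  have key : ∀ k, (powEigen p j μ k : ℂ) = ∑ i ∈ Finset.range (k + 1), α ^ i * β ^ (k - i) := by
    intro k
    induction k using Nat.strong_induction_on with
    | _ k ih =>
      match k with
      | 0 => simp [powEigen]
      | 1 =>
        simp [powEigen, Finset.sum_range_succ]
        linear_combination -hs
      | k + 2 =>
        have e1 := ih (k + 1) (by omega)
        rw [hrec k] at e1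
        rw [powEigen, hrec (k + 1), hrec k]
        push_cast
        rw [e1, ih k (by omega), ← hs]
        rw [hb] at hm
        push_cast at hm
        rw [← hm]
        ring
  rw [← Real.norm_eq_abs, ← Complex.norm_real, key r]
  refine (norm_sum_le _ _).trans ((Finset.sum_le_sum fun i hi => ?_).trans_eq
    (by rw [Finset.sum_const, Finset.card_range, nsmul_eq_mul]; push_cast; rfl))
  rw [Finset.mem_range] at hi
  rw [norm_mul, norm_pow, norm_pow]
  calc ‖α‖ ^ i * ‖β‖ ^ (r - i) ≤ P ^ i * P ^ (r - i) := mul_le_mul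
        (pow_le_pow_left₀ (norm_nonneg _) hα i) (pow_le_pow_left₀ (norm_nonneg _) hβ _)
        (pow_nonneg (norm_nonneg _) _) (pow_nonneg hP i)
    _ = P ^ r := by rw [← pow_add, Nat.add_sub_cancel' (by omega)]

/-- The Euclidean norm of a vector. -/
def vnorm {j : ℕ} (w : Fin (j + 1) → ℂ) : ℝ := ‖(WithLp.toLp 2 w : EuclideanSpace ℂ (Fin (j + 1)))‖

theorem vnorm_nonneg {j : ℕ} (w : Fin (j + 1) → ℂ) : 0 ≤ vnorm w := norm_nonneg _

theorem vnorm_pos {j : ℕ} {w : Fin (j + 1) → ℂ} (hw : w ≠ 0) : 0 < vnorm w :=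
  norm_pos_iff.2 fun e => hw (congrArg WithLp.ofLp e)

/-- The projection on the forms fixed by the units shrinks. -/
theorem vnorm_avgU_one_le (j : ℕ) (w : Fin (j + 1) → ℂ) : vnorm (avgU j 1 *ᵥ w) ≤ vnorm w := by
  set v := avgU j 1 *ᵥ w with hv
  have hid : avgU j 1 * avgU j 1 = avgU j 1 := avgU_mul (Nat.coprime_one_left 1)
    (by norm_num) (by norm_num)
  have e : star v ⬝ᵥ v = star w ⬝ᵥ v := by
    conv_lhs => rw [hv, Matrix.star_mulVec, (isHermitian_avgU j 1).eq, ← Matrix.dotProduct_mulVec,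
      Matrix.mulVec_mulVec, hid, ← hv]
  have hi : ∀ a b : Fin (j + 1) → ℂ, inner ℂ (WithLp.toLp 2 a : EuclideanSpace ℂ (Fin (j + 1)))
      (WithLp.toLp 2 b) = star a ⬝ᵥ b := fun a b => by
    rw [EuclideanSpace.inner_toLp_toLp, dotProduct_comm]
  have h1 := norm_inner_le_norm (𝕜 := ℂ) (WithLp.toLp 2 w : EuclideanSpace ℂ (Fin (j + 1)))
    (WithLp.toLp 2 v)
  rw [hi, ← e, ← hi, inner_self_eq_norm_sq_to_K] at h1
  simp only [norm_pow, RCLike.norm_ofReal, abs_norm] at h1
  rcases eq_or_ne v 0 with h | h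
  · rw [h]
    simp [vnorm]
  · exact le_of_mul_le_mul_right (by rw [← pow_two]; exact h1) (vnorm_pos h)

/-- **The operator of a prime power.** -/
theorem vnorm_avgU_prime_pow_le {j p : ℕ} (hj : 0 < j) (hp : p.Prime) (h5 : 5 ≤ p) (r : ℕ)
    (w : Fin (j + 1) → ℂ) :
    vnorm (avgU j (p ^ r) *ᵥ w) ≤ ((r : ℝ) + 1) * ((p : ℝ) ^ expo j) ^ r * vnorm w := by
  set hA := isHermitian_avgU j p
  set B := hA.eigenvectorBasis
  set M := ((r : ℝ) + 1) * ((p : ℝ) ^ expo j) ^ r
  have hP : (0 : ℝ) < (p : ℝ) ^ expo j := Real.rpow_pos_of_pos (Nat.cast_pos.2 hp.pos) _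
  have he : ∀ i, avgU j p *ᵥ WithLp.ofLp (B i) =
      ((hA.eigenvalues i : ℝ) : ℂ) • WithLp.ofLp (B i) := fun i => by
    rw [hA.mulVec_eigenvectorBasis i]
    exact RCLike.real_smul_eq_coe_smul _ _
  have hlam : ∀ i, |powEigen p j (hA.eigenvalues i) r| ≤ M := fun i => by
    refine powEigen_le hP.le (pow_succ_le_expo_sq hp.one_le j) (fun hd => ?_) r
    have h0 : hA.eigenvalues i ≠ 0 := fun h => by
      rw [h] at hd
      have : (0 : ℝ) ≤ (p : ℝ) ^ (j + 1) := by positivity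
      linarith
    have hne : WithLp.ofLp (B i) ≠ 0 := fun h => B.toBasis.ne_zero i (by
      rw [OrthonormalBasis.coe_toBasis]
      exact WithLp.ofLp_injective 2 h)
    have h3 : ¬3 ∣ p := by simpa using SphereHecke.not_three_dvd_pow hp h5 1
    have hinv : avgU j 1 *ᵥ WithLp.ofLp (B i) = WithLp.ofLp (B i) := by
      have e : avgU j 1 *ᵥ (avgU j p *ᵥ WithLp.ofLp (B i)) = avgU j p *ᵥ WithLp.ofLp (B i) := by
        rw [Matrix.mulVec_mulVec, avgU_mul p.coprime_one_left (by norm_num) h3, one_mul]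
      rw [he i, Matrix.mulVec_smul] at e
      exact smul_right_injective _ (Complex.ofReal_ne_zero.2 h0) e
    obtain ⟨D, hD⟩ := exists_powEigen_bound hj hp h5 hne hinv (he i)
    exact root_le_of_powEigen_bound hp.pos hP (pow_succ_le_expo_sq hp.one_le j) hD hd
  set c := B.repr (WithLp.toLp 2 w)
  set d : EuclideanSpace ℂ (Fin (j + 1)) :=
    WithLp.toLp 2 fun i => (powEigen p j (hA.eigenvalues i) r : ℂ) * c i with hd
  have hw : w = ∑ i, c i • WithLp.ofLp (B i) := by
    have := congrArg WithLp.ofLp (B.sum_repr (WithLp.toLp 2 w))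
    rw [WithLp.ofLp_sum] at this
    simpa using this.symm
  have hz : avgU j (p ^ r) *ᵥ w = avgU j 1 *ᵥ WithLp.ofLp (B.repr.symm d) := by
    rw [← B.sum_repr (B.repr.symm d), LinearIsometryEquiv.apply_symm_apply, WithLp.ofLp_sum,
      Matrix.mulVec_sum]
    conv_lhs => rw [hw, Matrix.mulVec_sum]
    refine Finset.sum_congr rfl fun i _ => ?_
    rw [Matrix.mulVec_smul, avgU_pow_mulVec hp h5 (he i), WithLp.ofLp_smul, Matrix.mulVec_smul,
      smul_smul, hd, mul_comm]
  rw [hz]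
  refine (vnorm_avgU_one_le j _).trans ?_
  rw [vnorm, WithLp.toLp_ofLp, LinearIsometryEquiv.norm_map, vnorm,
    ← B.repr.norm_map (WithLp.toLp 2 w)]
  refine (sq_le_sq₀ (norm_nonneg _) (by positivity)).1 ?_
  rw [mul_pow, EuclideanSpace.norm_sq_eq, EuclideanSpace.norm_sq_eq, Finset.mul_sum]
  refine Finset.sum_le_sum fun i _ => ?_
  rw [hd]
  show ‖(powEigen p j (hA.eigenvalues i) r : ℂ) * c i‖ ^ 2 ≤ M ^ 2 * ‖c i‖ ^ 2
  rw [norm_mul, Complex.norm_real, Real.norm_eq_abs, mul_pow]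
  exact mul_le_mul_of_nonneg_right (pow_le_pow_left₀ (abs_nonneg _) (hlam i) 2) (sq_nonneg _)

/-- **The operator of a norm prime to six.** -/
theorem vnorm_avgU_le {j : ℕ} (hj : 0 < j) : ∀ n : ℕ, ¬2 ∣ n → ¬3 ∣ n → ∀ w : Fin (j + 1) → ℂ,
    vnorm (avgU j n *ᵥ w) ≤ (n.divisors.card : ℝ) * (n : ℝ) ^ expo j * vnorm w := by
  intro n
  induction n using Nat.recOnPosPrimePosCoprime with
  | prime_pow p k hp hk =>
    intro h2 h3 w
    have h5 : 5 ≤ p := by
      have d := dvd_pow_self p hk.ne'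
      have := hp.two_le
      by_contra! h
      interval_cases p
      · exact h2 d
      · exact h3 d
      · exact absurd hp (by norm_num)
    rw [Nat.divisors_prime_pow hp, Finset.card_map, Finset.card_range, Nat.cast_pow,
      ← Real.rpow_natCast (p : ℝ) k, ← Real.rpow_mul (Nat.cast_nonneg p), mul_comm (k : ℝ),
      Real.rpow_mul (Nat.cast_nonneg p), Real.rpow_natCast, Nat.cast_succ]
    exact vnorm_avgU_prime_pow_le hj hp h5 k w
  | zero => exact fun h => absurd (dvd_zero 2) h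
  | one =>
    intro _ _ w
    simpa using vnorm_avgU_one_le j w
  | coprime a b _ _ hab ha hb =>
    intro h2 h3 w
    have ha2 : ¬2 ∣ a := fun h => h2 (h.mul_right b)
    have ha3 : ¬3 ∣ a := fun h => h3 (h.mul_right b)
    have hb2 : ¬2 ∣ b := fun h => h2 (h.mul_left a)
    have hb3 : ¬3 ∣ b := fun h => h3 (h.mul_left a)
    rw [← avgU_mul hab ha3 hb3, ← Matrix.mulVec_mulVec, hab.card_divisors_mul]
    refine (ha ha2 ha3 _).trans ?_
    refine (mul_le_mul_of_nonneg_left (hb hb2 hb3 w) (by positivity)).trans (le_of_eq ?_)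
    rw [Nat.cast_mul, Nat.cast_mul, Real.mul_rpow (Nat.cast_nonneg a) (Nat.cast_nonneg b)]
    ring

/-- `d (n) n ^ (-1 / 4)`. -/
def capRate (n : ℕ) : ℝ := (n.divisors.card : ℝ) * (n : ℝ) ^ (-(1 / 4) : ℝ)

theorem ne_zero_of_odd {n : ℕ} (h2 : ¬2 ∣ n) : n ≠ 0 := fun h => h2 (h ▸ dvd_zero 2)

theorem capRate_pos {n : ℕ} (hn : n ≠ 0) : 0 < capRate n :=
  mul_pos (Nat.cast_pos.2 (Finset.card_pos.2 ⟨1, Nat.one_mem_divisors.2 hn⟩))
    (Real.rpow_pos_of_pos (Nat.cast_pos.2 (Nat.pos_of_ne_zero hn)) _)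

theorem card_normHz_ge {n : ℕ} (h2 : ¬2 ∣ n) : 24 * n ≤ (normHz n).card := by
  rw [card_normHz, FA.HurwitzQ.card_fours_four_odd (Nat.odd_iff.2 (by omega)),
    ArithmeticFunction.sigma_one_apply]
  exact Nat.mul_le_mul_left 24 (Finset.single_le_sum (f := fun d => d) (fun d _ => Nat.zero_le d)
    (Nat.mem_divisors.2 ⟨dvd_rfl, ne_zero_of_odd h2⟩))

theorem nonempty_normHz {n : ℕ} (h2 : ¬2 ∣ n) : (normHz n).Nonempty := by
  rw [← Finset.card_pos]
  have := card_normHz_ge h2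
  omega

/-- **The rate at a norm prime to six.** -/
theorem rated_capRate {n : ℕ} (h2 : ¬2 ∣ n) (h3 : ¬3 ∣ n) (hlt : capRate n < 1) :
    Rated n (capRate n) := by
  have hn := ne_zero_of_odd h2
  refine ⟨hn, nonempty_normHz h2, capRate_pos hn, hlt, fun j hj μ v hv hμ => ?_⟩
  have h := vnorm_avgU_le hj n h2 h3 v
  rw [hμ, vnorm, WithLp.toLp_smul, norm_smul, Complex.norm_real, Real.norm_eq_abs] at h
  have hμ' : |μ| ≤ (n.divisors.card : ℝ) * (n : ℝ) ^ expo j :=
    le_of_mul_le_mul_right h (vnorm_pos hv)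
  have hn0 : (0 : ℝ) < n := Nat.cast_pos.2 (Nat.pos_of_ne_zero hn)
  have hc : (24 : ℝ) * n ≤ (normHz n).card := by exact_mod_cast card_normHz_ge h2
  have hs : 0 ≤ eigenScale n j := by
    rw [eigenScale]
    positivity
  have hle : eigenScale n j ≤ (n : ℝ)⁻¹ * ((Real.sqrt n)⁻¹) ^ j := by
    refine mul_le_mul_of_nonneg_right ?_ (by positivity)
    rw [div_le_iff₀ (lt_of_lt_of_le (by positivity) hc)]
    refine le_trans (le_of_eq ?_) (mul_le_mul_of_nonneg_left hc (inv_nonneg.2 hn0.le))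
    field_simp
  rw [abs_mul, abs_of_nonneg hs]
  refine (mul_le_mul hle hμ' (abs_nonneg _) (by positivity)).trans (le_of_eq ?_)
  rw [capRate, expo, Real.rpow_add hn0, inv_pow, Real.sqrt_eq_rpow, ← Real.rpow_natCast,
    ← Real.rpow_mul hn0.le, show (1 / 2 : ℝ) * (j : ℝ) = (j : ℝ) / 2 by ring,
    show (-(1 / 4) : ℝ) = -1 + 3 / 4 by norm_num, Real.rpow_add hn0, Real.rpow_neg_one]
  have := (Real.rpow_pos_of_pos hn0 ((j : ℝ) / 2)).ne'
  field_simp

theorem norm_avgL_le_self {n : ℕ} (hn : n ≠ 0) (F : LTwo) : ‖avgL n F‖ ≤ ‖F‖ := by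
  rw [avgL_apply, norm_smul, norm_inv, Real.norm_natCast]
  rcases (normHz n).eq_empty_or_nonempty with h | h
  · simp [h]
  refine (inv_mul_le_iff₀ (Nat.cast_pos.2 h.card_pos)).2 ((norm_sum_le _ _).trans ?_)
  rw [Finset.sum_congr rfl fun x hx => norm_rotL hn hx F, Finset.sum_const, nsmul_eq_mul]

/-- **The gap at every norm prime to six.** -/
theorem norm_avgL_capRate {n : ℕ} (h2 : ¬2 ∣ n) (h3 : ¬3 ∣ n) (F : LTwo) :
    ‖avgL n (centred F)‖ ≤ capRate n * ‖centred F‖ := by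
  rcases lt_or_ge (capRate n) 1 with h | h
  · exact BanachRuziewicz.norm_avgL_le_rated (rated_capRate h2 h3 h) F
  · exact (norm_avgL_le_self (ne_zero_of_odd h2) _).trans (le_mul_of_one_le_left (norm_nonneg _) h)

end FA.IntegerPointsCaps

end
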